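import Fermat.Agent.LGRes.Approx

/-!
# The Kummer residue lemma
-/

set_option autoImplicit false

noncomputable section

open HahnSeries ModularCurve Polynomial

namespace Fermat.Agent.LGRes

open Fermat.Agent.Igusa

section Decomp

variable {Ω : Type*} [Field Ω] {L : Type*} [Field L] [Algebra L Ω] {K : IntermediateField L Ω}

theorem exists_poly_of_mem_adjoin {u : Ω} (hu : IsIntegral K u) {z : Ω}
    (hz : z ∈ IntermediateField.adjoin L ((K : Set Ω) ∪ {u})) :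
    ∃ P : K[X], aeval u P = z := by
  have h1 : IntermediateField.adjoin L ((K : Set Ω) ∪ {u}) ≤
      (IntermediateField.adjoin K ({u} : Set Ω)).restrictScalars L := by
    rw [IntermediateField.adjoin_le_iff]
    rintro x (hx | hx)
    · exact (IntermediateField.adjoin K ({u} : Set Ω)).algebraMap_mem (⟨x, hx⟩ : K)
    · exact IntermediateField.subset_adjoin K _ hx
  have h2 : z ∈ (IntermediateField.adjoin K ({u} : Set Ω)) := h1 hz
  have h3 : z ∈ (IntermediateField.adjoin K ({u} : Set Ω)).toSubalgebra := h2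
  rw [IntermediateField.adjoin_simple_toSubalgebra_of_isAlgebraic hu.isAlgebraic,
    Algebra.adjoin_singleton_eq_range_aeval] at h3
  obtain ⟨P, hP⟩ := h3
  exact ⟨P, hP⟩

theorem exists_decomp {u t w : Ω} (hw : w ∈ K) {n : ℕ} (hn : 0 < n) (hun : u ^ n = w * t)
    (P : K[X]) : ∃ c : Fin n → K[X], aeval u P = ∑ i, aeval t (c i) * u ^ (i : ℕ) := by
  induction P using Polynomial.induction_on' with
  | add P Q hP hQ =>
    obtain ⟨c, hc⟩ := hP
    obtain ⟨d, hd⟩ := hQ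
    refine ⟨fun i => c i + d i, ?_⟩
    rw [map_add, hc, hd, ← Finset.sum_add_distrib]
    refine Finset.sum_congr rfl fun i _ => ?_
    rw [map_add, add_mul]
  | monomial k a =>
    refine ⟨Pi.single ⟨k % n, Nat.mod_lt k hn⟩ (C a * (C (⟨w, hw⟩ : K) * X) ^ (k / n)), ?_⟩
    rw [Finset.sum_eq_single (⟨k % n, Nat.mod_lt k hn⟩ : Fin n)]
    · rw [Pi.single_eq_same, aeval_monomial, map_mul, aeval_C, map_pow, map_mul, aeval_C, aeval_X]
      have e1 : u ^ k = (w * t) ^ (k / n) * u ^ (k % n) := by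
        rw [← hun, ← pow_mul, ← _root_.pow_add, Nat.div_add_mod]
      rw [e1, mul_assoc]
      rfl
    · intro i _ hi
      rw [Pi.single_eq_of_ne hi, map_zero, zero_mul]
    · intro h; exact absurd (Finset.mem_univ _) h

end Decomp

variable {L : Type*} [Field L] {A : ValuationSubring L}
  {κ : Type*} [Field κ] {π : A →+* κ}

theorem mem_gaussImage_iff_red (hπ : Function.Surjective π)
    {K : IntermediateField L (LaurentSeries L)} (hK : IsTameField K) {y : LaurentSeries κ} :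
    y ∈ gaussImage A π hK hπ ↔ ∃ x ∈ K, Red A π x y := by
  rw [mem_gaussImage_iff]
  constructor
  · rintro ⟨x, rfl⟩
    exact ⟨_, x.1.2, x.2, rfl⟩
  · rintro ⟨x, hx, h1, rfl⟩
    exact ⟨⟨⟨x, hx⟩, h1⟩, rfl⟩

/-- **Kummer residue lemma.** -/
theorem kummer_residue [IsAlgClosed L] (hπ : Function.Surjective π) (hπ' : IsLocalHom π)
    (harch : ∀ a : A, π a = 0 → ∀ b : L, ∃ B : ℕ, (a : L) ^ B * b ∈ A)
    {K0 : IntermediateField L (LaurentSeries L)} (hK0 : IsTameField K0)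
    {p : ℕ} (hp : p.Prime) (hp2 : p ≠ 2) (hpκ : (p : κ) ≠ 0)
    {u : LaurentSeries L} (hu : u ∈ tameQ L) {ub : LaurentSeries κ} (hur : Red A π u ub)
    (hub : ub ≠ 0) {s : ℕ} (hus : u ^ p ^ s ∈ K0)
    {z : LaurentSeries L} (hz : z ∈ IntermediateField.adjoin L ((K0 : Set (LaurentSeries L)) ∪ {u}))
    {zb : LaurentSeries κ} (hzr : Red A π z zb)
    (hzp : zb ^ p ∈ gaussImage A π hK0 hπ) :
    ∃ (i : ℕ) (y : LaurentSeries κ), y ∈ gaussImage A π hK0 hπ ∧ zb = ub ^ i * y := by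
  classical
  by_cases hz0 : zb = 0
  · exact ⟨0, 0, zero_mem _, by rw [hz0, mul_zero]⟩
  have hF : K0 ≤ tameQ L := le_tameQ hK0
  set k0 := gaussImage A π hK0 hπ with hk0
  have hmem : ∀ {y : LaurentSeries κ}, y ∈ k0 ↔ ∃ x ∈ K0, Red A π x y :=
    fun {y} => mem_gaussImage_iff_red hπ hK0
  have hex : ∃ r, ub ^ p ^ r ∈ k0 := ⟨s, hmem.mpr ⟨_, hus, hur.pow _⟩⟩
  set r := Nat.find hex with hrdef
  have hr : ub ^ p ^ r ∈ k0 := Nat.find_spec hex
  have hrs : r ≤ s := Nat.find_min' hex (hmem.mpr ⟨_, hus, hur.pow _⟩)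
  have hmin : ∀ i < r, ∀ b : k0, algebraMap k0 (LaurentSeries κ) b ≠ ub ^ p ^ i := by
    intro i hi b hb
    apply Nat.find_min hex hi
    rw [← hb]
    exact b.2
  obtain ⟨w, hwK, hw⟩ := hmem.mp hr
  have hubr : ub ^ p ^ r ≠ 0 := pow_ne_zero _ hub
  have hw0 : w ≠ 0 := hw.ne_zero hubr
  set t := u ^ p ^ r * w⁻¹ with ht
  have htr : Red A π t 1 := by
    have := (hur.pow (p ^ r)).mul (hw.inv hubr)
    rwa [mul_inv_cancel₀ hubr] at this
  have htK : t ^ p ^ (s - r) ∈ K0 := by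
    rw [ht, mul_pow, ← pow_mul, ← _root_.pow_add, Nat.add_sub_cancel' hrs]
    exact mul_mem hus (pow_mem (inv_mem hwK) _)
  have hqκ : ((p ^ (s - r) : ℕ) : κ) ≠ 0 := by
    rw [Nat.cast_pow]; exact pow_ne_zero _ hpκ
  have hun : u ^ p ^ r = w * t := by
    rw [ht, mul_comm w, inv_mul_cancel_right₀ hw0]
  -- decomposition
  have hint : IsIntegral K0 u := by
    refine ⟨X ^ p ^ s - Polynomial.C (⟨u ^ p ^ s, hus⟩ : K0),
      monic_X_pow_sub_C _ (pow_ne_zero _ hp.ne_zero), ?_⟩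
    rw [eval₂_sub, eval₂_X_pow, eval₂_C]
    exact sub_self _
  obtain ⟨P, hP⟩ := exists_poly_of_mem_adjoin hint hz
  obtain ⟨c, hc⟩ := exists_decomp hwK (pow_pos hp.pos r) hun P
  rw [hP] at hc
  -- normalisation of the coefficients
  have hut : ∀ Q : K0[X], aeval t Q ∈ tameQ L := by
    intro Q
    have h1 : t ∈ tameQ L := mul_mem (pow_mem hu _) (inv_mem (hF hwK))
    rw [aeval_def, eval₂_eq_sum, Polynomial.sum]
    exact sum_mem fun i _ => mul_mem (hF (Q.coeff i).2) (pow_mem h1 _)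
  have hnorm : ∀ i, ∃ (a : L) (v : LaurentSeries L) (y : LaurentSeries κ), y ≠ 0 ∧
      y ∈ k0 ∧ Red A π v y ∧ aeval t (c i) = cst a * v := by
    intro i
    by_cases hi : aeval t (c i) = 0
    · exact ⟨0, 1, 1, one_ne_zero, one_mem _, Red.one, by
        rw [hi, show cst (0 : L) = 0 from map_zero (algebraMap L (LaurentSeries L)), zero_mul]⟩
    · obtain ⟨a, ha0, v, y, hy, hv, h⟩ := exists_norm (A := A) (π := π) (hut (c i)) hi
      refine ⟨a, v, y, hy, ?_, hv, h⟩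
      have hv' : aeval t (Polynomial.C (⟨cst a⁻¹, K0.algebraMap_mem _⟩ : K0) * c i) = v := by
        rw [map_mul, aeval_C, h]
        show cst a⁻¹ * (cst a * v) = v
        rw [← mul_assoc, ← map_mul, inv_mul_cancel₀ ha0, map_one, one_mul]
      rw [← hv'] at hv
      obtain ⟨x, hx, hxr⟩ := exists_red_of_aeval hF hπ' htr hqκ htK
        (fun a ha _ => harch a ha) hv
      exact hmem.mpr ⟨x, hx, hxr⟩
  choose a v y hy0 hyk hv hav using hnorm
  have hane : ∃ i, a i ≠ 0 := by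
    by_contra hcon
    push Not at hcon
    apply hzr.ne_zero hz0
    rw [hc]
    refine Finset.sum_eq_zero fun i _ => ?_
    rw [hav i, hcon i, cst, map_zero, zero_mul, zero_mul]
  obtain ⟨i1, hi1⟩ := hane
  obtain ⟨i0, -, hi0⟩ := Finset.exists_max_image Finset.univ (fun i => A.valuation (a i))
    ⟨i1, Finset.mem_univ _⟩
  have ha0 : a i0 ≠ 0 := by
    intro h0
    have := hi0 i1 (Finset.mem_univ _)
    rw [h0, map_zero, le_zero_iff, Valuation.zero_iff] at this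
    exact hi1 this
  have hdiv : ∀ i, a i / a i0 ∈ A := by
    intro i
    rw [← A.valuation_le_one_iff, map_div₀]
    exact div_le_one_of_le₀ (hi0 i (Finset.mem_univ _)) zero_le
  -- roots of unity
  have hκ : IsAlgClosed κ := isAlgClosed_of_valuationSubring A π hπ
  have hprκ : ((p ^ r : ℕ) : κ) ≠ 0 := by
    rw [Nat.cast_pow]; exact pow_ne_zero _ hpκ
  have hne : NeZero ((p ^ r : ℕ) : κ) := ⟨hprκ⟩
  obtain ⟨ζ, hζ⟩ := (IsSepClosed.hasEnoughRootsOfUnity κ (p ^ r)).prim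
  have hζk : IsPrimitiveRoot (algebraMap κ k0 ζ) (p ^ r) :=
    hζ.map_of_injective (algebraMap κ k0).injective
  have haa : algebraMap k0 (LaurentSeries κ) ⟨ub ^ p ^ r, hr⟩ = ub ^ p ^ r := rfl
  -- the reduction of `z / a i0`
  have hz1 : z = cst (a i0) * ∑ i, cst (a i / a i0) * v i * u ^ (i : ℕ) := by
    rw [hc, Finset.mul_sum]
    refine Finset.sum_congr rfl fun i _ => ?_
    rw [hav i, ← mul_assoc, ← mul_assoc, ← map_mul, mul_div_cancel₀ _ ha0]
  have hk : ∀ i, algebraMap κ (LaurentSeries κ) (π ⟨a i / a i0, hdiv i⟩) * y i ∈ k0 :=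
    fun i => mul_mem (k0.algebraMap_mem _) (hyk i)
  have hz2 : Red A π (∑ i, cst (a i / a i0) * v i * u ^ (i : ℕ))
      (∑ i, algebraMap k0 (LaurentSeries κ) ⟨_, hk i⟩ * ub ^ (i : ℕ)) :=
    Red.sum _ fun i _ => ((red_algebraMap (⟨a i / a i0, hdiv i⟩ : A)).mul (hv i)).mul (hur.pow _)
  have hz3 : (∑ i, algebraMap k0 (LaurentSeries κ) ⟨_, hk i⟩ * ub ^ (i : ℕ)) ≠ 0 := by
    intro h0
    have h1 := eq_zero_of_sum_eq_zero hp hp2 haa hζk hmin h0 i0
    have h2 := congrArg (Subtype.val) h1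
    have h3 : (⟨a i0 / a i0, hdiv i0⟩ : A) = 1 := Subtype.ext (div_self ha0)
    simp only [h3, map_one, one_mul] at h2
    exact hy0 i0 h2
  rw [hz1] at hzr
  obtain ⟨ha, hz4⟩ := mem_of_red_mul hz2 hz3 hzr
  have hk' : ∀ i, algebraMap κ (LaurentSeries κ) (π ⟨a i0, ha⟩) *
      (algebraMap κ (LaurentSeries κ) (π ⟨a i / a i0, hdiv i⟩) * y i) ∈ k0 :=
    fun i => mul_mem (k0.algebraMap_mem _) (hk i)
  have hz5 : zb = ∑ i, algebraMap k0 (LaurentSeries κ) ⟨_, hk' i⟩ * ub ^ (i : ℕ) := by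
    rw [hz4, Finset.mul_sum]
    refine Finset.sum_congr rfl fun i _ => ?_
    rw [← mul_assoc]
    rfl
  obtain ⟨i, b, hb⟩ := kummer_mono hp hp2 haa hζk hmin hz5 (d := ⟨zb ^ p, hzp⟩) rfl
  exact ⟨i, b, b.2, by rw [hb, mul_comm]; rfl⟩

/-- **Kummer residue lemma**, in terms of `gaussRes`. -/
theorem kummer_residue_gaussRes [IsAlgClosed L] [IsLocalHom π] (hπ : Function.Surjective π)
    (harch : ∀ a : A, π a = 0 → ∀ b : L, ∃ B : ℕ, (a : L) ^ B * b ∈ A)
    {K0 : IntermediateField L (LaurentSeries L)} (hK0 : IsTameField K0)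
    {p : ℕ} (hp : p.Prime) (hp2 : p ≠ 2) (hpκ : (p : κ) ≠ 0)
    {u : LaurentSeries L} (hu : u ∈ tame L) (huG : u ∈ gaussRing A π)
    (hu0 : gaussRes A π ⟨u, huG⟩ ≠ 0) {s : ℕ} (hus : u ^ p ^ s ∈ K0)
    {z : LaurentSeries L} (hz : z ∈ IntermediateField.adjoin L ((K0 : Set (LaurentSeries L)) ∪ {u}))
    (hzG : z ∈ gaussRing A π)
    (hzp : gaussRes A π ⟨z, hzG⟩ ^ p ∈ gaussImage A π hK0 hπ) :
    ∃ (i : ℕ) (y : LaurentSeries κ), y ∈ gaussImage A π hK0 hπ ∧
      gaussRes A π ⟨z, hzG⟩ = gaussRes A π ⟨u, huG⟩ ^ i * y :=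
  kummer_residue hπ inferInstance harch hK0 hp hp2 hpκ (mem_tameQ_of_tame hu) (red_of_mem huG)
    hu0 hus hz (red_of_mem hzG) hzp

/-- the field `K0(u)` is a tame field. -/
theorem isTameField_adjoin_union {K0 : IntermediateField L (LaurentSeries L)}
    (hK0 : IsTameField K0) {u : LaurentSeries L} (hu : u ∈ tameQ L) :
    IsTameField (IntermediateField.adjoin L ((K0 : Set (LaurentSeries L)) ∪ {u})) := by
  have h : IntermediateField.adjoin L ((K0 : Set (LaurentSeries L)) ∪ {u}) ≤ tameQ L := by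
    rw [IntermediateField.adjoin_le_iff]
    rintro x (hx | hx)
    · exact hK0 x hx
    · rw [Set.mem_singleton_iff.mp hx]; exact hu
  exact fun x hx => h hx

end Fermat.Agent.LGRes
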