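import Fermat.Agent.Igusa.DeuringData

/-!
# Reduction relation for the Gauss ring, quotients of tame series
-/

set_option autoImplicit false

noncomputable section

open HahnSeries ModularCurve Polynomial

namespace Fermat.Agent.LGRes

open Fermat.Agent.Igusa

variable {L : Type*} [Field L] (A : ValuationSubring L) {κ : Type*} [Field κ] (π : A →+* κ)

/-- `x` lies in the Gauss ring and its reduction is `y`. -/
def Red (x : LaurentSeries L) (y : LaurentSeries κ) : Prop :=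
  ∃ h : x ∈ gaussRing A π, gaussRes A π ⟨x, h⟩ = y

variable {A π}

theorem Red.mem {x : LaurentSeries L} {y : LaurentSeries κ} (h : Red A π x y) :
    x ∈ gaussRing A π := h.1

theorem Red.unique {x : LaurentSeries L} {y y' : LaurentSeries κ} (h : Red A π x y)
    (h' : Red A π x y') : y = y' := by
  obtain ⟨h1, rfl⟩ := h
  obtain ⟨h2, rfl⟩ := h'
  rfl

theorem red_of_mem {x : LaurentSeries L} (h : x ∈ gaussRing A π) :
    Red A π x (gaussRes A π ⟨x, h⟩) := ⟨h, rfl⟩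

theorem Red.add {x x' : LaurentSeries L} {y y' : LaurentSeries κ} (h : Red A π x y)
    (h' : Red A π x' y') : Red A π (x + x') (y + y') := by
  obtain ⟨h1, rfl⟩ := h
  obtain ⟨h2, rfl⟩ := h'
  exact ⟨add_mem h1 h2, by rw [← map_add]; rfl⟩

theorem Red.neg {x : LaurentSeries L} {y : LaurentSeries κ} (h : Red A π x y) :
    Red A π (-x) (-y) := by
  obtain ⟨h1, rfl⟩ := h
  exact ⟨neg_mem h1, by rw [← map_neg]; rfl⟩

theorem Red.sub {x x' : LaurentSeries L} {y y' : LaurentSeries κ} (h : Red A π x y)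
    (h' : Red A π x' y') : Red A π (x - x') (y - y') := by
  rw [sub_eq_add_neg, sub_eq_add_neg]; exact h.add h'.neg

theorem Red.mul {x x' : LaurentSeries L} {y y' : LaurentSeries κ} (h : Red A π x y)
    (h' : Red A π x' y') : Red A π (x * x') (y * y') := by
  obtain ⟨h1, rfl⟩ := h
  obtain ⟨h2, rfl⟩ := h'
  exact ⟨mul_mem h1 h2, by rw [← map_mul]; rfl⟩

theorem Red.one : Red A π (1 : LaurentSeries L) 1 :=
  ⟨one_mem _, map_one (gaussRes A π)⟩

theorem Red.zero : Red A π (0 : LaurentSeries L) 0 :=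
  ⟨zero_mem _, map_zero (gaussRes A π)⟩

theorem Red.pow {x : LaurentSeries L} {y : LaurentSeries κ} (h : Red A π x y) (n : ℕ) :
    Red A π (x ^ n) (y ^ n) := by
  induction n with
  | zero => simpa using Red.one
  | succ n ih => rw [pow_succ, pow_succ]; exact ih.mul h

theorem Red.sum {ι : Type*} (s : Finset ι) {x : ι → LaurentSeries L} {y : ι → LaurentSeries κ}
    (h : ∀ i ∈ s, Red A π (x i) (y i)) : Red A π (∑ i ∈ s, x i) (∑ i ∈ s, y i) := by
  classical
  induction s using Finset.induction_on with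
  | empty => simpa using Red.zero
  | insert a s ha ih =>
    rw [Finset.sum_insert ha, Finset.sum_insert ha]
    exact (h a (Finset.mem_insert_self a s)).add
      (ih fun i hi => h i (Finset.mem_insert_of_mem hi))

theorem Red.natCast (n : ℕ) : Red A π (n : LaurentSeries L) (n : LaurentSeries κ) :=
  ⟨natCast_mem _ n, by
    have := map_natCast (gaussRes A π) n
    exact this⟩

theorem Red.inv {x : LaurentSeries L} {y : LaurentSeries κ} (h : Red A π x y) (hy : y ≠ 0) :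
    Red A π x⁻¹ y⁻¹ := by
  obtain ⟨h1, h2⟩ := h
  have hy' : gaussRes A π ⟨x, h1⟩ ≠ 0 := by rw [h2]; exact hy
  have h4 : x⁻¹ ∈ gaussRing A π := inv_mem_gaussRing (x := ⟨x, h1⟩) hy'
  have h3 : gaussRes A π ⟨x⁻¹, h4⟩ = (gaussRes A π ⟨x, h1⟩)⁻¹ :=
    gaussRes_inv (x := ⟨x, h1⟩) hy'
  refine ⟨h4, ?_⟩
  rw [h3, h2]

theorem Red.ne_zero {x : LaurentSeries L} {y : LaurentSeries κ} (h : Red A π x y) (hy : y ≠ 0) :
    x ≠ 0 := by
  rintro rfl
  exact hy (h.unique Red.zero)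

theorem red_algebraMap (a : A) : Red A π (algebraMap L (LaurentSeries L) (a : L))
    (algebraMap κ (LaurentSeries κ) (π a)) :=
  ⟨algebraMap_mem_gaussRing A π a, gaussRes_algebraMap A π a rfl⟩

/-- The field of quotients of tame series. -/
def tameQ (L : Type*) [Field L] : IntermediateField L (LaurentSeries L) where
  carrier := {x | ∃ P ∈ tame L, ∃ Q ∈ tame L, Q ≠ 0 ∧ x * Q = P}
  mul_mem' := by
    rintro x y ⟨P, hP, Q, hQ, hQ0, hx⟩ ⟨P', hP', Q', hQ', hQ0', hy⟩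
    refine ⟨P * P', mul_mem hP hP', Q * Q', mul_mem hQ hQ', mul_ne_zero hQ0 hQ0', ?_⟩
    rw [← hx, ← hy]; ring
  one_mem' := ⟨1, one_mem _, 1, one_mem _, one_ne_zero, one_mul _⟩
  add_mem' := by
    rintro x y ⟨P, hP, Q, hQ, hQ0, hx⟩ ⟨P', hP', Q', hQ', hQ0', hy⟩
    refine ⟨P * Q' + P' * Q, add_mem (mul_mem hP hQ') (mul_mem hP' hQ), Q * Q', mul_mem hQ hQ',
      mul_ne_zero hQ0 hQ0', ?_⟩
    rw [← hx, ← hy]; ring
  zero_mem' := ⟨0, zero_mem _, 1, one_mem _, one_ne_zero, zero_mul _⟩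
  algebraMap_mem' := fun c => ⟨algebraMap L _ c, (tame L).algebraMap_mem c, 1, one_mem _,
    one_ne_zero, mul_one _⟩
  inv_mem' := by
    rintro x ⟨P, hP, Q, hQ, hQ0, hx⟩
    by_cases hx0 : x = 0
    · rw [hx0, inv_zero]; exact ⟨0, zero_mem _, 1, one_mem _, one_ne_zero, zero_mul _⟩
    · refine ⟨Q, hQ, P, hP, ?_, ?_⟩
      · rw [← hx]; exact mul_ne_zero hx0 hQ0
      · rw [← hx, inv_mul_cancel_left₀ hx0]

theorem mem_tameQ_of_tame {x : LaurentSeries L} (hx : x ∈ tame L) : x ∈ tameQ L :=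
  ⟨x, hx, 1, one_mem _, one_ne_zero, mul_one _⟩

theorem le_tameQ {F : IntermediateField L (LaurentSeries L)} (hF : IsTameField F) :
    F ≤ tameQ L := fun x hx => hF x hx

theorem isTameField_tameQ : IsTameField (tameQ L) := fun _ hx => hx

/-- normalisation of an element of `tameQ`. -/
theorem exists_norm {x : LaurentSeries L} (hx : x ∈ tameQ L) (hx0 : x ≠ 0) :
    ∃ c : L, c ≠ 0 ∧ ∃ w y, y ≠ 0 ∧ Red A π w y ∧ x = algebraMap L (LaurentSeries L) c * w := by
  obtain ⟨P, hP, Q, hQ, hQ0, hxQ⟩ := hx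
  have hP0 : P ≠ 0 := by rw [← hxQ]; exact mul_ne_zero hx0 hQ0
  obtain ⟨c, hc0, P₀, hP₀, hcP, -⟩ := exists_normalize A π hP hP0
  obtain ⟨d, hd0, Q₀, hQ₀, hdQ, -⟩ := exists_normalize A π hQ hQ0
  have h1 : Red A π (coeffMap A.subtype P₀) (coeffMap π P₀) :=
    ⟨emb_mem_gaussRing P₀, gaussRes_emb P₀⟩
  have h2 : Red A π (coeffMap A.subtype Q₀) (coeffMap π Q₀) :=
    ⟨emb_mem_gaussRing Q₀, gaussRes_emb Q₀⟩
  have h2' := h2.inv hQ₀
  have hd' : algebraMap L (LaurentSeries L) d ≠ 0 := by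
    rwa [ne_eq, map_eq_zero_iff _ (algebraMap L (LaurentSeries L)).injective]
  have hQ0' := h2.ne_zero hQ₀
  refine ⟨c / d, div_ne_zero hc0 hd0, _, _, mul_ne_zero hP₀ (inv_ne_zero hQ₀), h1.mul h2', ?_⟩
  have hx' : x = P / Q := (eq_div_iff hQ0).mpr hxQ
  rw [hx', ← hcP, ← hdQ, map_div₀]
  field_simp

variable [IsLocalHom π]

theorem mem_of_red_mul {c : L} {w : LaurentSeries L} {y y' : LaurentSeries κ} (hw : Red A π w y)
    (hy : y ≠ 0) (h : Red A π (algebraMap L (LaurentSeries L) c * w) y') :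
    ∃ hc : c ∈ A, y' = algebraMap κ (LaurentSeries κ) (π ⟨c, hc⟩) * y := by
  have h1 : Red A π (algebraMap L (LaurentSeries L) c) (y' * y⁻¹) := by
    have := h.mul (hw.inv hy)
    rwa [mul_assoc, mul_inv_cancel₀ (hw.ne_zero hy), mul_one] at this
  have hc : c ∈ A := mem_of_algebraMap_mem_gaussRing h1.mem
  refine ⟨hc, ?_⟩
  have := h1.unique (red_algebraMap ⟨c, hc⟩)
  rw [← this, inv_mul_cancel_right₀ hy]

end Fermat.Agent.LGRes
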