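import Mathlib

/-!
# Kummer theory: an element of `K(u)` whose `p`-th power is in `K` is a monomial
-/

set_option autoImplicit false

noncomputable section

open Polynomial

namespace Fermat.Agent.LGRes

section Newton

theorem newton {S : Type*} [CommRing S] (B c : S) (q : ℕ) (hq : IsUnit (q : S))
    (hc : B ∣ c - 1) (n : ℕ) : ∃ x : S, B ∣ x - 1 ∧ B ^ (n + 1) ∣ x ^ q - c := by
  induction n with
  | zero =>
    refine ⟨1, by simp, ?_⟩
    rw [one_pow, zero_add, pow_one]
    rw [← dvd_neg, neg_sub]; exact hc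
  | succ n ih =>
    obtain ⟨x, hx1, g, hg⟩ := ih
    obtain ⟨v, hv⟩ := hq.exists_right_inv
    obtain ⟨k, hk⟩ := Polynomial.powAddExpansion x (-(v * B ^ (n + 1) * g)) q
    refine ⟨x + -(v * B ^ (n + 1) * g), ?_, ?_⟩
    · have : x + -(v * B ^ (n + 1) * g) - 1 = (x - 1) - B * (v * B ^ n * g) := by
        rw [pow_succ]; ring
      rw [this]
      exact dvd_sub hx1 (dvd_mul_right _ _)
    · rw [hk]
      have h1 : B ∣ 1 - x ^ (q - 1) := by
        have h2 : (x - 1) ∣ x ^ (q - 1) - 1 ^ (q - 1) := sub_dvd_pow_sub_pow x 1 (q - 1)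
        rw [one_pow] at h2
        rw [← dvd_neg, neg_sub]
        exact hx1.trans h2
      have e1 : x ^ q + (q : S) * x ^ (q - 1) * -(v * B ^ (n + 1) * g)
          + k * (-(v * B ^ (n + 1) * g)) ^ 2 - c
          = B ^ (n + 1) * g * (1 - x ^ (q - 1)) + k * (v * g) ^ 2 * (B ^ n * B ^ (n + 2)) := by
        have e2 : x ^ q - c = B ^ (n + 1) * g := hg
        have e3 : x ^ q + (q : S) * x ^ (q - 1) * -(v * B ^ (n + 1) * g)
          + k * (-(v * B ^ (n + 1) * g)) ^ 2 - c = (x ^ q - c)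
            - ((q : S) * v) * x ^ (q - 1) * (B ^ (n + 1) * g)
            + k * (v * g) ^ 2 * (B ^ n * B ^ (n + 2)) := by ring
        rw [e3, e2, hv]; ring
      rw [e1]
      apply dvd_add
      · obtain ⟨y, hy⟩ := h1
        rw [hy]
        exact ⟨g * y, by ring⟩
      · exact ⟨k * (v * g) ^ 2 * B ^ n, by ring⟩

end Newton

variable {K E : Type*} [Field K] [Field E] [Algebra K E]

section

variable {p : ℕ} (hp : p.Prime) (hp2 : p ≠ 2) {r : ℕ} {u : E} {a : K}
    (ha : algebraMap K E a = u ^ p ^ r) {ζ : K} (hζ : IsPrimitiveRoot ζ (p ^ r))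
    (hmin : ∀ i < r, ∀ b : K, algebraMap K E b ≠ u ^ p ^ i)

include hp hp2 ha hζ hmin

theorem irreducible_of_min : Irreducible (X ^ p ^ r - C a : K[X]) := by
  rcases Nat.eq_zero_or_pos r with hr | hr
  · subst hr
    simpa using irreducible_X_sub_C a
  · refine X_pow_sub_C_irreducible_of_prime_pow hp hp2 r ?_
    intro b hb
    obtain ⟨r, rfl⟩ := Nat.exists_eq_succ_of_ne_zero hr.ne'
    have h1 : (algebraMap K E b) ^ p = (u ^ p ^ r) ^ p := by
      rw [← map_pow, hb, ha, ← pow_mul, pow_succ]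
    have hu0 : u ≠ 0 := by
      rintro rfl
      refine hmin 0 (Nat.succ_pos r) 0 ?_
      simp
    have hur : u ^ p ^ r ≠ 0 := pow_ne_zero _ hu0
    have hb0 : algebraMap K E b ≠ 0 := by
      intro h0
      rw [h0, zero_pow hp.ne_zero] at h1
      exact pow_ne_zero _ hur h1.symm
    have h2 : (u ^ p ^ r / algebraMap K E b) ^ p = 1 := by
      rw [div_pow, ← h1, div_self (pow_ne_zero _ hb0)]
    have hζ' : IsPrimitiveRoot (ζ ^ p ^ r) p :=
      hζ.pow (pow_pos hp.pos _) (by rw [pow_succ])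
    have hζE : IsPrimitiveRoot (algebraMap K E (ζ ^ p ^ r)) p :=
      hζ'.map_of_injective (algebraMap K E).injective
    have : NeZero p := ⟨hp.ne_zero⟩
    obtain ⟨i, hi, h3⟩ := hζE.eq_pow_of_pow_eq_one h2
    refine hmin r (Nat.lt_succ_self r) ((ζ ^ p ^ r) ^ i * b) ?_
    rw [map_mul, map_pow, h3, div_mul_cancel₀ _ hb0]

theorem minpoly_eq_of_min : minpoly K u = X ^ p ^ r - C a := by
  refine (minpoly.eq_of_irreducible_of_monic (irreducible_of_min hp hp2 ha hζ hmin) ?_ ?_).symm
  · rw [map_sub, map_pow, aeval_X, aeval_C, ha, sub_self]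
  · exact monic_X_pow_sub_C a (pow_ne_zero _ hp.ne_zero)

theorem linearIndependent_of_min :
    LinearIndependent K (fun i : Fin (p ^ r) => u ^ (i : ℕ)) := by
  have h1 := linearIndependent_pow (K := K) u
  have h2 : (minpoly K u).natDegree = p ^ r := by
    rw [minpoly_eq_of_min hp hp2 ha hζ hmin, natDegree_X_pow_sub_C]
  have key : ∀ n, (minpoly K u).natDegree = n →
      LinearIndependent K (fun i : Fin n => u ^ (i : ℕ)) := by
    rintro n rfl
    exact h1
  exact key _ h2

theorem eq_zero_of_sum_eq_zero {c : Fin (p ^ r) → K}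
    (h : ∑ i, algebraMap K E (c i) * u ^ (i : ℕ) = 0) : ∀ i, c i = 0 := by
  have h0 := linearIndependent_of_min hp hp2 ha hζ hmin
  have h2 : ∑ i, c i • u ^ (i : ℕ) = 0 := by
    rw [← h]
    exact Finset.sum_congr rfl fun i _ => Algebra.smul_def _ _
  exact Fintype.linearIndependent_iff.mp h0 c h2

theorem kummer_mono {c : Fin (p ^ r) → K} {z : E}
    (hz : z = ∑ i, algebraMap K E (c i) * u ^ (i : ℕ)) {d : K}
    (hd : algebraMap K E d = z ^ p) : ∃ (i : ℕ) (b : K), z = algebraMap K E b * u ^ i := by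
  by_cases hz0 : z = 0
  · exact ⟨0, 0, by rw [hz0]; simp⟩
  rcases Nat.eq_zero_or_pos r with hr | hr
  · subst hr
    refine ⟨0, c ⟨0, by simp⟩, ?_⟩
    rw [hz]
    have : Subsingleton (Fin (p ^ 0)) := by rw [pow_zero]; infer_instance
    rw [Fintype.sum_subsingleton _ (⟨0, by simp⟩ : Fin (p ^ 0))]
  · set f : K[X] := ∑ i : Fin (p ^ r), C (c i) * X ^ (i : ℕ) with hf
    have hfu : aeval u f = z := by
      rw [hf, map_sum, hz]
      refine Finset.sum_congr rfl fun i _ => ?_
      rw [map_mul, aeval_C, map_pow, aeval_X]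
    have h1 : minpoly K u ∣ f ^ p - C d := by
      apply minpoly.dvd
      rw [map_sub, map_pow, hfu, aeval_C, hd, sub_self]
    rw [minpoly_eq_of_min hp hp2 ha hζ hmin] at h1
    have hζE : IsPrimitiveRoot (algebraMap K E ζ) (p ^ r) :=
      hζ.map_of_injective (algebraMap K E).injective
    obtain ⟨g, hg⟩ := h1
    have h2 : (aeval (algebraMap K E ζ * u) f) ^ p = z ^ p := by
      have h3 := congrArg (aeval (algebraMap K E ζ * u)) hg
      rw [map_sub, map_pow, map_mul, map_sub, map_pow, aeval_X, aeval_C, aeval_C, mul_pow,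
        hζE.pow_eq_one, one_mul, ha, sub_self, zero_mul, hd] at h3
      exact sub_eq_zero.mp h3
    have h4 : (aeval (algebraMap K E ζ * u) f / z) ^ (p ^ r) = 1 := by
      obtain ⟨r, rfl⟩ := Nat.exists_eq_succ_of_ne_zero hr.ne'
      rw [pow_succ', pow_mul, div_pow, h2, div_self (pow_ne_zero _ hz0), one_pow]
    have : NeZero (p ^ r) := ⟨pow_ne_zero _ hp.ne_zero⟩
    obtain ⟨j, hj, h5⟩ := hζE.eq_pow_of_pow_eq_one h4
    have h6 : aeval (algebraMap K E ζ * u) f = algebraMap K E (ζ ^ j) * z := by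
      rw [map_pow, h5, div_mul_cancel₀ _ hz0]
    have h7 : ∑ i : Fin (p ^ r), algebraMap K E (c i * (ζ ^ (i : ℕ) - ζ ^ j)) * u ^ (i : ℕ)
        = 0 := by
      have h8 : aeval (algebraMap K E ζ * u) f
          = ∑ i : Fin (p ^ r), algebraMap K E (c i * ζ ^ (i : ℕ)) * u ^ (i : ℕ) := by
        rw [hf, map_sum]
        refine Finset.sum_congr rfl fun i _ => ?_
        rw [map_mul, aeval_C, map_pow, aeval_X, mul_pow, map_mul, map_pow]; ring
      have h9 : algebraMap K E (ζ ^ j) * z
          = ∑ i : Fin (p ^ r), algebraMap K E (c i * ζ ^ j) * u ^ (i : ℕ) := by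
        rw [hz, Finset.mul_sum]
        refine Finset.sum_congr rfl fun i _ => ?_
        rw [map_mul]; ring
      rw [← sub_eq_zero.mpr h6, h8, h9, ← Finset.sum_sub_distrib]
      refine Finset.sum_congr rfl fun i _ => ?_
      rw [mul_sub, map_sub, sub_mul]
    have h10 := eq_zero_of_sum_eq_zero hp hp2 ha hζ hmin h7
    refine ⟨j, c ⟨j, hj⟩, ?_⟩
    rw [hz, Finset.sum_eq_single (⟨j, hj⟩ : Fin (p ^ r))]
    · intro i _ hij
      have h11 := h10 i
      rcases mul_eq_zero.mp h11 with h | h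
      · rw [h, map_zero, zero_mul]
      · exfalso
        apply hij
        exact Fin.ext (hζ.pow_inj i.2 hj (sub_eq_zero.mp h))
    · intro h; exact absurd (Finset.mem_univ _) h

end

section AlgClosed

variable {L : Type*} [Field L] [IsAlgClosed L] (A : ValuationSubring L) {κ : Type*} [Field κ]

theorem isAlgClosed_of_valuationSubring (π : A →+* κ) (hπ : Function.Surjective π) :
    IsAlgClosed κ := by
  apply IsAlgClosed.of_exists_root
  intro f hf hfirr
  have hl : f ∈ lifts π := by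
    rw [lifts_iff_coeff_lifts]
    intro n
    exact hπ _
  obtain ⟨q, hq, hdeg, hmon⟩ := lifts_and_natDegree_eq_and_monic hl hf
  have hd : (q.map A.subtype).degree ≠ 0 := by
    rw [hmon.degree_map]
    intro h0
    have h1 : q.natDegree = 0 := natDegree_eq_of_degree_eq_some h0
    rw [h1] at hdeg
    have h2 := hfirr.natDegree_pos
    omega
  obtain ⟨x, hx⟩ := IsAlgClosed.exists_root _ hd
  have hint : IsIntegral A x := ⟨q, hmon, by rwa [IsRoot, eval_map] at hx⟩
  obtain ⟨y, rfl⟩ := IsIntegrallyClosed.isIntegral_iff.mp hint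
  refine ⟨π y, ?_⟩
  rw [← hq, eval_map, eval₂_hom]
  have h3 : eval y q = 0 := by
    have h4 : A.subtype (eval y q) = 0 := by
      rw [← eval₂_hom, ← eval_map]
      exact hx
    exact Subtype.ext h4
  rw [h3, map_zero]

end AlgClosed

end Fermat.Agent.LGRes
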