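import Fermat.Agent.LGRes.Red
import Fermat.Agent.LGRes.Kummer

/-!
# Approximation of elements of `F(t)`, `t̄ = 1`, `t ^ q ∈ F` by elements of `F`
-/

set_option autoImplicit false

noncomputable section

open HahnSeries ModularCurve Polynomial

namespace Fermat.Agent.LGRes

open Fermat.Agent.Igusa

variable {L : Type*} [Field L] {A : ValuationSubring L} {κ : Type*} [Field κ] {π : A →+* κ}

/-- the constant -/
abbrev cst (c : L) : LaurentSeries L := algebraMap L (LaurentSeries L) c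

theorem cst_ne_zero {c : L} (hc : c ≠ 0) : cst c ≠ 0 := by
  rwa [cst, ne_eq, map_eq_zero_iff _ (algebraMap L (LaurentSeries L)).injective]

/-- if `π b = 0`, multiples of `b` reduce to zero -/
theorem red_cst_mul {b : A} (hb : π b = 0) {g : LaurentSeries L} (hg : g ∈ gaussRing A π) :
    Red A π (cst (b : L) * g) 0 := by
  have h1 := (red_algebraMap (π := π) b).mul (red_of_mem hg)
  rwa [hb, map_zero, zero_mul] at h1

section

variable {F : IntermediateField L (LaurentSeries L)} (hF : F ≤ tameQ L)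
  (hπ' : IsLocalHom π) {t : LaurentSeries L} (ht : Red A π t 1) {q : ℕ} (hq : (q : κ) ≠ 0)
  (htF : t ^ q ∈ F)

include hF hπ' ht htF in
theorem exists_small : ∃ b : A, π b = 0 ∧ ∃ g ∈ gaussRing A π, g ∈ F ∧
    t ^ q - 1 = cst (b : L) * g := by
  by_cases h0 : t ^ q - 1 = 0
  · exact ⟨0, map_zero _, 0, zero_mem _, zero_mem _, by rw [h0, mul_zero]⟩
  obtain ⟨c, hc0, w, y, hy, hw, h⟩ := exists_norm (A := A) (π := π)
    (hF (sub_mem htF (one_mem F))) h0
  have h1 : Red A π (cst c * w) 0 := by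
    rw [← h]
    have := (ht.pow q).sub Red.one
    rwa [one_pow, sub_self] at this
  obtain ⟨hc, h2⟩ := mem_of_red_mul hw hy h1
  have h3 : π ⟨c, hc⟩ = 0 := by
    rcases mul_eq_zero.mp h2.symm with h | h
    · exact (map_eq_zero_iff _ (algebraMap κ (LaurentSeries κ)).injective).mp h
    · exact absurd h hy
  refine ⟨⟨c, hc⟩, h3, w, hw.mem, ?_, h⟩
  have : w = cst c⁻¹ * (t ^ q - 1) := by
    rw [h, ← mul_assoc, ← map_mul, inv_mul_cancel₀ hc0, map_one, one_mul]
  rw [this]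
  exact mul_mem (F.algebraMap_mem _) (sub_mem htF (one_mem F))

include ht hq htF in
theorem exists_approx {b : A} (hb : π b = 0) {g : LaurentSeries L} (hg : g ∈ gaussRing A π)
    (hgF : g ∈ F) (htg : t ^ q - 1 = cst (b : L) * g) (n : ℕ) :
    ∃ x ∈ F, x ∈ gaussRing A π ∧ ∃ h ∈ gaussRing A π, t - x = cst (b : L) ^ (n + 1) * h := by
  -- the ring `S = F ∩ gaussRing`
  set S : Subring (LaurentSeries L) := F.toSubfield.toSubring ⊓ gaussRing A π with hS
  have hmemS : ∀ {x : LaurentSeries L}, x ∈ S ↔ x ∈ F ∧ x ∈ gaussRing A π := fun {x} => Iff.rfl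
  have hBS : cst (b : L) ∈ S := hmemS.mpr ⟨F.algebraMap_mem _, algebraMap_mem_gaussRing A π b⟩
  have hcS : t ^ q ∈ S := hmemS.mpr ⟨htF, (ht.pow q).mem⟩
  have hqκ : (q : LaurentSeries κ) ≠ 0 := by
    rw [← map_natCast (algebraMap κ (LaurentSeries κ)), ne_eq,
      map_eq_zero_iff _ (algebraMap κ (LaurentSeries κ)).injective]
    exact hq
  have hqinv : Red A π ((q : LaurentSeries L)⁻¹) ((q : LaurentSeries κ)⁻¹) :=
    (Red.natCast q).inv hqκ
  have hq0 : (q : LaurentSeries L) ≠ 0 := (Red.natCast (A := A) (π := π) q).ne_zero hqκ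
  have hqS : (q : LaurentSeries L)⁻¹ ∈ S :=
    hmemS.mpr ⟨inv_mem (natCast_mem F q), hqinv.mem⟩
  have hqU : IsUnit ((q : ℕ) : S) := by
    refine IsUnit.of_mul_eq_one ⟨_, hqS⟩ (Subtype.ext ?_)
    show ((q : S) : LaurentSeries L) * (q : LaurentSeries L)⁻¹ = 1
    rw [Subring.coe_natCast, mul_inv_cancel₀ hq0]
  have hdvd : (⟨cst (b : L), hBS⟩ : S) ∣ ⟨t ^ q, hcS⟩ - 1 := by
    refine ⟨⟨g, hmemS.mpr ⟨hgF, hg⟩⟩, Subtype.ext ?_⟩
    exact htg
  obtain ⟨x, ⟨y1, hy1⟩, y2, hy2⟩ := newton (⟨cst (b : L), hBS⟩ : S) ⟨t ^ q, hcS⟩ q hqU hdvd n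
  have hx1 : (x : LaurentSeries L) - 1 = cst (b : L) * (y1 : LaurentSeries L) :=
    congrArg Subtype.val hy1
  have hx2 : (x : LaurentSeries L) ^ q - t ^ q = cst (b : L) ^ (n + 1) * (y2 : LaurentSeries L) :=
    congrArg Subtype.val hy2
  have hxr : Red A π (x : LaurentSeries L) 1 := by
    have h1 := (red_cst_mul hb (hmemS.mp y1.2).2).add Red.one
    rw [← hx1, sub_add_cancel, zero_add] at h1
    exact h1
  refine ⟨x, (hmemS.mp x.2).1, (hmemS.mp x.2).2, ?_⟩
  -- the sum
  have h2 : (∑ i ∈ Finset.range q, t ^ i * (x : LaurentSeries L) ^ (q - 1 - i)) *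
      (t - x) = t ^ q - (x : LaurentSeries L) ^ q := Commute.geom_sum₂_mul (Commute.all _ _) q
  have h3 : Red A π (∑ i ∈ Finset.range q, t ^ i * (x : LaurentSeries L) ^ (q - 1 - i))
      (q : LaurentSeries κ) := by
    have h4 := Red.sum (A := A) (π := π) (Finset.range q)
      (x := fun i => t ^ i * (x : LaurentSeries L) ^ (q - 1 - i)) (y := fun _ => 1) (by
        intro i _
        have := (ht.pow i).mul (hxr.pow (q - 1 - i))
        rwa [one_pow, one_pow, one_mul] at this)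
    rwa [Finset.sum_const, Finset.card_range, nsmul_eq_mul, mul_one] at h4
  have h5 := h3.inv hqκ
  have h6 := h3.ne_zero hqκ
  set s := ∑ i ∈ Finset.range q, t ^ i * (x : LaurentSeries L) ^ (q - 1 - i) with hs
  refine ⟨-(s⁻¹ * y2), neg_mem (mul_mem h5.mem (hmemS.mp y2.2).2), ?_⟩
  have h7 : s * (t - x) = -(cst (b : L) ^ (n + 1) * y2) := by
    rw [h2, ← hx2]; ring
  have h8 : t - x = s⁻¹ * (s * (t - x)) := by
    rw [inv_mul_cancel_left₀ h6]
  rw [h8, h7]; ring

/-- coefficients of a polynomial become Gauss integral after multiplication by `b ^ m`. -/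
theorem exists_pow_mul_mem {b : A} (hF : F ≤ tameQ L)
    (harch : ∀ c : L, ∃ B : ℕ, (b : L) ^ B * c ∈ A) (P : F[X]) :
    ∃ m : ℕ, ∀ i, cst (b : L) ^ m * ((P.coeff i : F) : LaurentSeries L) ∈ gaussRing A π := by
  have h1 : ∀ x ∈ F, ∃ m : ℕ, ∀ m' ≥ m, cst (b : L) ^ m' * x ∈ gaussRing A π := by
    intro x hx
    by_cases hx0 : x = 0
    · exact ⟨0, fun m' _ => by rw [hx0, mul_zero]; exact zero_mem _⟩
    obtain ⟨c, hc0, w, y, hy, hw, h⟩ := exists_norm (A := A) (π := π) (hF hx) hx0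
    obtain ⟨B, hB⟩ := harch c
    refine ⟨B, fun m' hm' => ?_⟩
    have h2 : (b : L) ^ m' * c ∈ A := by
      obtain ⟨k, rfl⟩ := Nat.exists_eq_add_of_le hm'
      rw [_root_.pow_add, mul_comm ((b : L) ^ B), mul_assoc]
      exact A.mul_mem _ _ (pow_mem b.2 _) hB
    rw [h, ← mul_assoc, cst, ← map_pow, ← map_mul]
    exact mul_mem (algebraMap_mem_gaussRing A π ⟨_, h2⟩) hw.mem
  choose! m hm using h1
  refine ⟨P.support.sup fun i => m (P.coeff i : F), fun i => ?_⟩
  by_cases hi : i ∈ P.support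
  · exact hm _ (P.coeff i).2 _ (Finset.le_sup (f := fun i => m (P.coeff i : F)) hi)
  · rw [notMem_support_iff.mp hi]
    simp

include hF hπ' ht hq htF in
theorem exists_red_of_aeval
    (harch : ∀ a : A, π a = 0 → (a : L) ≠ 0 → ∀ c : L, ∃ B : ℕ, (a : L) ^ B * c ∈ A)
    {P : F[X]} {y : LaurentSeries κ} (h : Red A π (aeval t P) y) : ∃ x ∈ F, Red A π x y := by
  obtain ⟨b, hb, g, hg, hgF, htg⟩ := exists_small hF hπ' ht htF
  by_cases hb0 : (b : L) = 0
  · -- then `t = x ∈ F`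
    obtain ⟨x, hxF, -, h', -, hx⟩ := exists_approx ht hq htF hb hg hgF htg 0
    have hbc : cst (b : L) = 0 := by rw [hb0, cst, map_zero]
    rw [zero_add, pow_one, hbc, zero_mul, sub_eq_zero] at hx
    refine ⟨aeval t P, ?_, h⟩
    have : aeval t P = ((eval (⟨x, hxF⟩ : F) P : F) : LaurentSeries L) := by
      rw [hx]
      exact aeval_algebraMap_apply (LaurentSeries L) (⟨x, hxF⟩ : F) P
    rw [this]
    exact Subtype.mem _
  · obtain ⟨m, hm⟩ := exists_pow_mul_mem (π := π) hF (harch b hb hb0) P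
    obtain ⟨x, hxF, hxG, h', hh', hx⟩ := exists_approx ht hq htF hb hg hgF htg m
    set f : F →+* LaurentSeries L := algebraMap F (LaurentSeries L) with hf
    -- `P(t) - P(x) = b * stuff`
    have hdiv : ∃ k ∈ gaussRing A π, cst (b : L) ^ m * (aeval t P - aeval x P) = (t - x) * k := by
      have e1 : ∀ z : LaurentSeries L, aeval z P = ∑ i ∈ P.support, f (P.coeff i) * z ^ i := by
        intro z
        rw [aeval_def, eval₂_eq_sum, Polynomial.sum]
      have e2 : ∀ i, ∃ k ∈ gaussRing A π, t ^ i - x ^ i = (t - x) * k := by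
        intro i
        refine ⟨∑ j ∈ Finset.range i, t ^ j * x ^ (i - 1 - j), ?_, ?_⟩
        · exact sum_mem fun j _ => mul_mem (pow_mem ht.mem _) (pow_mem hxG _)
        · rw [mul_comm]
          exact (Commute.geom_sum₂_mul (Commute.all _ _) i).symm
      choose k hk1 hk2 using e2
      refine ⟨∑ i ∈ P.support, (cst (b : L) ^ m * f (P.coeff i)) * k i,
        sum_mem fun i _ => mul_mem (hm i) (hk1 i), ?_⟩
      rw [e1, e1, ← Finset.sum_sub_distrib, Finset.mul_sum, Finset.mul_sum]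
      refine Finset.sum_congr rfl fun i _ => ?_
      rw [← mul_sub, hk2 i]; ring
    obtain ⟨k, hk, hk2⟩ := hdiv
    have hbc : cst (b : L) ≠ 0 := cst_ne_zero hb0
    have h9 : aeval t P - aeval x P = cst (b : L) * (h' * k) := by
      have hbm : cst (b : L) ^ m ≠ 0 := pow_ne_zero _ hbc
      apply mul_left_cancel₀ hbm
      rw [hk2, hx, pow_succ]; ring
    refine ⟨aeval x P, ?_, ?_⟩
    · have : aeval x P = ((eval (⟨x, hxF⟩ : F) P : F) : LaurentSeries L) :=
        aeval_algebraMap_apply (LaurentSeries L) (⟨x, hxF⟩ : F) P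
      rw [this]
      exact Subtype.mem _
    · have h10 := h.sub (red_cst_mul hb (mul_mem hh' hk))
      rw [← h9, sub_sub_cancel, sub_zero] at h10
      exact h10

end

end Fermat.Agent.LGRes
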